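import Fermat.Agent.LT.A2.H965.CentVal

/-!
# Row LT, tower A2, leaf A2.03.8.3 `H142.CentC` (helper965), part 4: the split case, locally
— OFF-MAIN

`M ∈ GL₂(F)` a torus matrix `torMat t n A B` with integral entries and `det M` a uniformiser,
`Z = diag(c, c)` a scalar uniformiser, unit discriminant.  Then `Z M⁻¹` is integral with
determinant a uniformiser, and `M⁻¹ (Z M⁻¹)` is NOT integral.
-/

set_option autoImplicit false

open IsDedekindDomain NumberField AutomorphicForm MeasureTheory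
open scoped MatrixGroups

noncomputable section

namespace Fermat.Agent.LT.A2.H965

open Fermat.Agent.LT.H556 Fermat.Agent.LT.H556.A0 Fermat.Agent.LT.H129 Fermat.Agent.LT.A2

section Loc

variable {F : Type*} [Field F] (v : Valuation F (WithZero (Multiplicative ℤ)))

/-- The entries of a torus matrix with integral parameters are integral. -/
theorem torMat_val_le965 {t n a b : F} (ht : v t ≤ 1) (hn : v n ≤ 1) (ha : v a ≤ 1)
    (hb : v b ≤ 1) (i j : Fin 2) : v (torMat t n a b i j) ≤ 1 := by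
  have h1 : v (n * b) ≤ 1 := by rw [map_mul]; exact mul_le_one' hn hb
  have h2 : v (t * b) ≤ 1 := by rw [map_mul]; exact mul_le_one' ht hb
  unfold torMat
  fin_cases i <;> fin_cases j
  · simpa using ha
  · simpa using h1
  · simpa using hb
  · simpa using (v.map_add_le_max' a (t * b)).trans (max_le ha h2)

/-- The inverse of an element of `GL₂(F)` as a matrix. -/
theorem coe_inv_eq965 (M : GL (Fin 2) F) :
    ((M⁻¹ : GL (Fin 2) F) : Matrix (Fin 2) (Fin 2) F)
      = ((M : Matrix (Fin 2) (Fin 2) F).det)⁻¹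
        • Matrix.adjugate (M : Matrix (Fin 2) (Fin 2) F) := by
  rw [Matrix.coe_units_inv, Matrix.inv_def, Ring.inverse_eq_inv']

theorem det_ne_zero965 (M : GL (Fin 2) F) : (M : Matrix (Fin 2) (Fin 2) F).det ≠ 0 := by
  have h : IsUnit (M : Matrix (Fin 2) (Fin 2) F).det :=
    (Matrix.isUnit_iff_isUnit_det _).1 M.isUnit
  exact h.ne_zero

variable {t n A B c : F} {M Z : GL (Fin 2) F}

/-- `Z M⁻¹` as a matrix. -/
theorem coe_Z_mul_inv965 (hZ : (Z : Matrix (Fin 2) (Fin 2) F) = Matrix.diagonal (fun _ => c)) :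
    ((Z * M⁻¹ : GL (Fin 2) F) : Matrix (Fin 2) (Fin 2) F)
      = (c * ((M : Matrix (Fin 2) (Fin 2) F).det)⁻¹)
        • Matrix.adjugate (M : Matrix (Fin 2) (Fin 2) F) := by
  rw [Matrix.GeneralLinearGroup.coe_mul, coe_inv_eq965, hZ]
  ext i j
  rw [Matrix.diagonal_mul, Matrix.smul_apply, Matrix.smul_apply, smul_eq_mul, smul_eq_mul,
    mul_assoc]

/-- `M⁻¹ (Z M⁻¹)` as a matrix. -/
theorem coe_inv_mul_Z_mul_inv965
    (hZ : (Z : Matrix (Fin 2) (Fin 2) F) = Matrix.diagonal (fun _ => c)) :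
    ((M⁻¹ * (Z * M⁻¹) : GL (Fin 2) F) : Matrix (Fin 2) (Fin 2) F)
      = (((M : Matrix (Fin 2) (Fin 2) F).det)⁻¹ * (c * ((M : Matrix (Fin 2) (Fin 2) F).det)⁻¹))
        • (Matrix.adjugate (M : Matrix (Fin 2) (Fin 2) F)
          * Matrix.adjugate (M : Matrix (Fin 2) (Fin 2) F)) := by
  rw [Matrix.GeneralLinearGroup.coe_mul, coe_Z_mul_inv965 hZ, coe_inv_eq965, Matrix.smul_mul,
    Matrix.mul_smul, smul_smul]

/-- (c) `Z M⁻¹` is integral. -/
theorem split_integral965 (ht : v t ≤ 1) (hn : v n ≤ 1) (hA : v A ≤ 1) (hB : v B ≤ 1)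
    (hM : (M : Matrix (Fin 2) (Fin 2) F) = torMat t n A B)
    (hdet : v (M : Matrix (Fin 2) (Fin 2) F).det = WithZero.exp (-1 : ℤ))
    (hZ : (Z : Matrix (Fin 2) (Fin 2) F) = Matrix.diagonal (fun _ => c))
    (hc : v c = WithZero.exp (-1 : ℤ)) (i j : Fin 2) :
    v (((Z * M⁻¹ : GL (Fin 2) F) : Matrix (Fin 2) (Fin 2) F) i j) ≤ 1 := by
  rw [coe_Z_mul_inv965 hZ, Matrix.smul_apply, smul_eq_mul, map_mul, map_mul, map_inv₀, hdet, hc,
    mul_inv_cancel₀ WithZero.exp_ne_zero, one_mul, hM, torMat_adjugate965]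
  have htB : v (t * B) ≤ 1 := by rw [map_mul]; exact mul_le_one' ht hB
  have hnB : v (-B) ≤ 1 := by rw [Valuation.map_neg]; exact hB
  exact torMat_val_le965 v ht hn ((v.map_add_le_max' A (t * B)).trans (max_le hA htB)) hnB i j

/-- (d) the determinant of `Z M⁻¹` is a uniformiser. -/
theorem split_det965
    (hdet : v (M : Matrix (Fin 2) (Fin 2) F).det = WithZero.exp (-1 : ℤ))
    (hZ : (Z : Matrix (Fin 2) (Fin 2) F) = Matrix.diagonal (fun _ => c))
    (hc : v c = WithZero.exp (-1 : ℤ)) :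
    v ((Z * M⁻¹ : GL (Fin 2) F) : Matrix (Fin 2) (Fin 2) F).det = WithZero.exp (-1 : ℤ) := by
  have h1 : ((M⁻¹ : GL (Fin 2) F) : Matrix (Fin 2) (Fin 2) F).det
      * (M : Matrix (Fin 2) (Fin 2) F).det = 1 := by
    rw [← Matrix.det_mul, ← Matrix.GeneralLinearGroup.coe_mul, inv_mul_cancel,
      Matrix.GeneralLinearGroup.coe_one, Matrix.det_one]
  have h2 : v ((M⁻¹ : GL (Fin 2) F) : Matrix (Fin 2) (Fin 2) F).det
      = (WithZero.exp (-1 : ℤ))⁻¹ := by
    have := congrArg v h1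
    rw [map_mul, hdet, map_one] at this
    exact eq_inv_of_mul_eq_one_left this
  rw [Matrix.GeneralLinearGroup.coe_mul, Matrix.det_mul, hZ, Matrix.det_diagonal,
    Fin.prod_univ_two, map_mul, map_mul, hc, h2, mul_inv_cancel_right₀ WithZero.exp_ne_zero]

/-- (e) `M⁻¹ (Z M⁻¹)` is not integral (unit discriminant). -/
theorem split_not_integral965 (ht : v t ≤ 1) (hn : v n ≤ 1) (hA : v A ≤ 1) (hB : v B ≤ 1)
    (hdisc : v (t ^ 2 - 4 * n) = 1)
    (hM : (M : Matrix (Fin 2) (Fin 2) F) = torMat t n A B)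
    (hdet : v (M : Matrix (Fin 2) (Fin 2) F).det = WithZero.exp (-1 : ℤ))
    (hZ : (Z : Matrix (Fin 2) (Fin 2) F) = Matrix.diagonal (fun _ => c))
    (hc : v c = WithZero.exp (-1 : ℤ)) :
    ¬ ∀ i j : Fin 2, v (((M⁻¹ * (Z * M⁻¹) : GL (Fin 2) F) : Matrix (Fin 2) (Fin 2) F) i j) ≤ 1 := by
  intro hint
  set α : F := A + t * B with hα
  set β : F := -B with hβ
  have htB : v (t * B) ≤ 1 := by rw [map_mul]; exact mul_le_one' ht hB
  have hαv : v α ≤ 1 := (v.map_add_le_max' A (t * B)).trans (max_le hA htB)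
  have hβv : v β ≤ 1 := by rw [hβ, Valuation.map_neg]; exact hB
  have hexp : (WithZero.exp (-1 : ℤ) : WithZero (Multiplicative ℤ)) < 1 := by
    rw [← WithZero.exp_zero, WithZero.exp_lt_exp]; norm_num
  have hk : v (((M : Matrix (Fin 2) (Fin 2) F).det)⁻¹
      * (c * ((M : Matrix (Fin 2) (Fin 2) F).det)⁻¹)) = (WithZero.exp (-1 : ℤ))⁻¹ := by
    rw [map_mul, map_mul, map_inv₀, hdet, hc, mul_inv_cancel₀ WithZero.exp_ne_zero, mul_one]
  have hsq : Matrix.adjugate (M : Matrix (Fin 2) (Fin 2) F)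
      * Matrix.adjugate (M : Matrix (Fin 2) (Fin 2) F)
      = torMat t n (α * α - n * β * β) (α * β + α * β + t * β * β) := by
    rw [hM, torMat_adjugate965, torMat_mul965]
  have hentry : ∀ i j : Fin 2,
      v (torMat t n (α * α - n * β * β) (α * β + α * β + t * β * β) i j) < 1 := by
    intro i j
    have h := hint i j
    rw [coe_inv_mul_Z_mul_inv965 hZ, Matrix.smul_apply, smul_eq_mul, map_mul, hk, hsq] at h
    have h' : v (torMat t n (α * α - n * β * β) (α * β + α * β + t * β * β) i j)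
        ≤ WithZero.exp (-1 : ℤ) := by
      have := mul_le_mul_right h (WithZero.exp (-1 : ℤ))
      rwa [← mul_assoc, mul_inv_cancel₀ WithZero.exp_ne_zero, one_mul, mul_one] at this
    exact lt_of_le_of_lt h' hexp
  have h00 : v (α * α - n * β * β) < 1 := by
    have := hentry 0 0
    simpa [torMat] using this
  have h10 : v (α * β + α * β + t * β * β) < 1 := by
    have := hentry 1 0
    simpa [torMat] using this
  obtain ⟨hα1, hβ1⟩ := val_lemma965 v ht hn hαv hβv hdisc h00 h10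
  have hB1 : v B ≤ WithZero.exp (-1 : ℤ) := by
    apply withZero_le_exp_neg_one129
    rwa [hβ, Valuation.map_neg] at hβ1
  have hA1 : v A ≤ WithZero.exp (-1 : ℤ) := by
    apply withZero_le_exp_neg_one129
    have e : A = α + t * β := by rw [hα, hβ]; ring
    rw [e]
    exact lt_of_le_of_lt (v.map_add_le_max' _ _)
      (max_lt hα1 (val_mul_lt_one_right965 v ht hβ1))
  have hdet' : (M : Matrix (Fin 2) (Fin 2) F).det = A * A + t * A * B + n * B * B := by
    rw [hM, torMat_det965]; ring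
  have hT1 : v (A * A) ≤ WithZero.exp (-1 : ℤ) * WithZero.exp (-1 : ℤ) := by
    rw [map_mul]; exact mul_le_mul' hA1 hA1
  have hT2 : v (t * A * B) ≤ WithZero.exp (-1 : ℤ) * WithZero.exp (-1 : ℤ) := by
    rw [map_mul, map_mul]
    calc v t * v A * v B ≤ 1 * WithZero.exp (-1 : ℤ) * WithZero.exp (-1 : ℤ) :=
          mul_le_mul' (mul_le_mul' ht hA1) hB1
      _ = WithZero.exp (-1 : ℤ) * WithZero.exp (-1 : ℤ) := by rw [one_mul]
  have hT3 : v (n * B * B) ≤ WithZero.exp (-1 : ℤ) * WithZero.exp (-1 : ℤ) := by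
    rw [map_mul, map_mul]
    calc v n * v B * v B ≤ 1 * WithZero.exp (-1 : ℤ) * WithZero.exp (-1 : ℤ) :=
          mul_le_mul' (mul_le_mul' hn hB1) hB1
      _ = WithZero.exp (-1 : ℤ) * WithZero.exp (-1 : ℤ) := by rw [one_mul]
  have hT12 : v (A * A + t * A * B) ≤ WithZero.exp (-1 : ℤ) * WithZero.exp (-1 : ℤ) :=
    (v.map_add_le_max' _ _).trans (max_le hT1 hT2)
  have hle : v (M : Matrix (Fin 2) (Fin 2) F).det
      ≤ WithZero.exp (-1 : ℤ) * WithZero.exp (-1 : ℤ) := by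
    rw [hdet']
    exact (v.map_add_le_max' _ _).trans (max_le hT12 hT3)
  rw [hdet, ← WithZero.exp_add, WithZero.exp_le_exp] at hle
  norm_num at hle

end Loc

end Fermat.Agent.LT.A2.H965

end
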