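import Fermat.Agent.LT.A2.H965.CentW
import Fermat.Agent.LT.A2.H965.CentLoc

/-!
# Row LT, tower A2, leaf A2.03.8.3 `H142.CentC` (helper965), part 5: THE LEAF — OFF-MAIN

`centC965 : H142.CentC` — the central character of the Whittaker function at a place
`v ∤ π.level`: `W (g z) = b_v W(g)` for every scalar uniformiser `z` at `v`.

* `W (g z) = η(a) χT(z) W(g)`, `z = diag(a, a)` (`W_scalar965`);
* INERT: `η(a) = -1` (`good_eta`), `b = -χT(z)` (`InducedAtT`);
* SPLIT: `m₁ ∈ T(K_v)` integral with `det m₁` a uniformiser; `m₂ = z m₁⁻¹` is integral with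
  determinant a uniformiser and `m₁⁻¹ m₂` is not integral (`CentLoc`, unit discriminant), so
  `b = χT(m₁) χT(m₂) = χT(z)`; and `η(a) = η(det m₁) η(unit) = 1` (`quad.norm`, `good_eta`).
-/

set_option autoImplicit false

open IsDedekindDomain NumberField AutomorphicForm MeasureTheory
open scoped MatrixGroups

noncomputable section

namespace Fermat.Agent.LT.A2.H965

open Fermat.Agent.LT.H556 Fermat.Agent.LT.H556.A0 Fermat.Agent.LT.H129 Fermat.Agent.LT.A2

variable {K : Type} [Field K] [NumberField K]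

/-! ## Components -/

theorem evF_algebraMap965 (v : HeightOneSpectrum (𝓞 K)) (x : K) :
    evF129 v (algebraMap K (Adl K) x) = algebraMap K (v.adicCompletion K) x := rfl

/-- The component at `v` of a torus element. -/
theorem finComp_torus965 (v : HeightOneSpectrum (𝓞 K)) {t n : K} {m : G K} {a b : Adl K}
    (hm : (m : Matrix (Fin 2) (Fin 2) (Adl K))
      = torMat (algebraMap K (Adl K) t) (algebraMap K (Adl K) n) a b) :
    ((finCompHom129 v m : GL (Fin 2) (v.adicCompletion K)) :
      Matrix (Fin 2) (Fin 2) (v.adicCompletion K))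
      = torMat (algebraMap K (v.adicCompletion K) t) (algebraMap K (v.adicCompletion K) n)
          (evF129 v a) (evF129 v b) := by
  rw [coe_finCompHom129_map, hm, torMat_map965, evF_algebraMap965, evF_algebraMap965]

/-- The component at `v` of a scalar matrix. -/
theorem finComp_diagonal965 (v : HeightOneSpectrum (𝓞 K)) {z : G K} {a : Adl K}
    (hz : (z : Matrix (Fin 2) (Fin 2) (Adl K)) = Matrix.diagonal (fun _ => a)) :
    ((finCompHom129 v z : GL (Fin 2) (v.adicCompletion K)) :
      Matrix (Fin 2) (Fin 2) (v.adicCompletion K))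
      = Matrix.diagonal (fun _ => evF129 v a) := by
  rw [coe_finCompHom129_map, hz, Matrix.diagonal_map (map_zero _)]

/-- The components of the determinant. -/
theorem det_fin965 (v : HeightOneSpectrum (𝓞 K)) (m : G K) :
    ((Matrix.GeneralLinearGroup.det m : (Adl K)ˣ) : Adl K).2 v
      = ((finCompHom129 v m : GL (Fin 2) (v.adicCompletion K)) :
          Matrix (Fin 2) (Fin 2) (v.adicCompletion K)).det := by
  rw [Matrix.GeneralLinearGroup.val_det_apply, ← evF129_apply, RingHom.map_det,
    RingHom.mapMatrix_apply, coe_finCompHom129_map]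

theorem det_inf965 (w : InfinitePlace K) (m : G K) :
    ((Matrix.GeneralLinearGroup.det m : (Adl K)ˣ) : Adl K).1 w
      = ((infCompHom129 w m : GL (Fin 2) w.Completion) :
          Matrix (Fin 2) (Fin 2) w.Completion).det := by
  rw [Matrix.GeneralLinearGroup.val_det_apply, ← evI129_apply, RingHom.map_det,
    RingHom.mapMatrix_apply, coe_infCompHom129_map]

/-- The determinant of an element supported at `v` is an idele supported at `v`. -/
theorem isIdeleAt_det965 {v : HeightOneSpectrum (𝓞 K)} {m : G K} (hm : IsLocalAtFin v m) :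
    IsIdeleAt v (Matrix.GeneralLinearGroup.det m) := by
  rw [isLocalAtFin_iff129] at hm
  refine ⟨fun w => ?_, fun v' h => ?_⟩
  · rw [det_inf965, hm.1 w, Matrix.GeneralLinearGroup.coe_one, Matrix.det_one]
  · rw [det_fin965, hm.2 v' h, Matrix.GeneralLinearGroup.coe_one, Matrix.det_one]

theorem idele_inv_inf965 {a : (Adl K)ˣ} {w : InfinitePlace K} (h : (a : Adl K).1 w = 1) :
    ((a⁻¹ : (Adl K)ˣ) : Adl K).1 w = 1 := by
  have h1 : (a : Adl K) * ((a⁻¹ : (Adl K)ˣ) : Adl K) = 1 := Units.mul_inv a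
  have h2 := congrArg (evI129 w) h1
  rw [map_mul, map_one, evI129_apply, evI129_apply, h, one_mul] at h2
  exact h2

theorem idele_inv_fin965 {a : (Adl K)ˣ} {v : HeightOneSpectrum (𝓞 K)} (h : (a : Adl K).2 v = 1) :
    ((a⁻¹ : (Adl K)ˣ) : Adl K).2 v = 1 := by
  have h1 : (a : Adl K) * ((a⁻¹ : (Adl K)ˣ) : Adl K) = 1 := Units.mul_inv a
  have h2 := congrArg (evF129 v) h1
  rw [map_mul, map_one, evF129_apply, evF129_apply, h, one_mul] at h2
  exact h2

theorem idele_inv_val965 (a : (Adl K)ˣ) (v : HeightOneSpectrum (𝓞 K)) :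
    Valued.v (((a⁻¹ : (Adl K)ˣ) : Adl K).2 v) = (Valued.v ((a : Adl K).2 v))⁻¹ := by
  have h1 : ((a⁻¹ : (Adl K)ˣ) : Adl K) * (a : Adl K) = 1 := Units.inv_mul a
  have h2 := congrArg (evF129 v) h1
  rw [map_mul, map_one, evF129_apply, evF129_apply] at h2
  have h3 := congrArg Valued.v h2
  rw [map_mul, map_one] at h3
  exact eq_inv_of_mul_eq_one_left h3

theorem idele_mul_inf965 (a b : (Adl K)ˣ) (w : InfinitePlace K) :
    ((a * b : (Adl K)ˣ) : Adl K).1 w = (a : Adl K).1 w * (b : Adl K).1 w := rfl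

theorem idele_mul_fin965 (a b : (Adl K)ˣ) (v : HeightOneSpectrum (𝓞 K)) :
    ((a * b : (Adl K)ˣ) : Adl K).2 v = (a : Adl K).2 v * (b : Adl K).2 v := rfl

/-- `det(m) a⁻¹` is a unit idele at `v` if `det m` and `a` are uniformisers at `v`. -/
theorem isUnitIdeleAt_det_mul_inv965 {v : HeightOneSpectrum (𝓞 K)} {m : G K} {a : (Adl K)ˣ}
    (hm : IsLocalAtFin v m)
    (hdet : Valued.v (finComp v m).det = WithZero.exp (-1 : ℤ)) (ha : IsUnifIdeleAt v a) :
    IsUnitIdeleAt v (Matrix.GeneralLinearGroup.det m * a⁻¹) := by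
  have hδ := isIdeleAt_det965 hm
  refine ⟨⟨fun w => ?_, fun v' h => ?_⟩, ?_⟩
  · rw [idele_mul_inf965, hδ.1 w, idele_inv_inf965 (ha.1.1 w), mul_one]
  · rw [idele_mul_fin965, hδ.2 v' h, idele_inv_fin965 (ha.1.2 v' h), mul_one]
  · rw [idele_mul_fin965, map_mul, idele_inv_val965, ha.2, det_fin965, coe_finCompHom129, hdet,
      mul_inv_cancel₀ WithZero.exp_ne_zero]

/-! ## The leaf -/

/-- **A2.03.8.3 CENT** (`H142.CentC`). -/
theorem centC965 : H142.CentC := by
  intro K _ _ D η W v hctx z hz g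
  obtain ⟨a, haunif, hza⟩ := exists_idele_of_scalarUnif965 hz
  rw [W_scalar965 D η W hctx.good hctx.std hctx.t1.adNorm hctx.whit hza g]
  congr 1
  have hind := hctx.ind v hctx.hv
  have hzT : InTorus D.t D.n z := inTorus_of_diagonal965 D.t D.n hza
  by_cases hin : WL.IsInertAt D.t D.n v
  · rw [(hind.2 hin z hz).2, (hctx.std.good_eta v hctx.hv).2 hin a haunif]
    ring
  · have hsplit : ∃ m₁ : G K, InTorus D.t D.n m₁ ∧ IsLocalAtFin v m₁ ∧ IsIntegralAt v m₁ ∧
        Valued.v (finComp v m₁).det = WithZero.exp (-1 : ℤ) := by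
      by_contra hcon
      exact hin (fun m h1 h2 h3 h4 => hcon ⟨m, h1, h2, h3, h4⟩)
    obtain ⟨m₁, hT, hloc, hint, hdet⟩ := hsplit
    obtain ⟨A, B, hm₁⟩ := hT
    have hT : InTorus D.t D.n m₁ := ⟨A, B, hm₁⟩
    -- local data
    obtain ⟨ht, hn, hdisc⟩ := hctx.std.good_int v hctx.hv
    have edisc : algebraMap K (v.adicCompletion K) (D.t ^ 2 - 4 * D.n)
        = (algebraMap K (v.adicCompletion K) D.t) ^ 2
          - 4 * algebraMap K (v.adicCompletion K) D.n := by
      rw [map_sub, map_pow, map_mul, map_ofNat]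
    have hdisc' : Valued.v ((algebraMap K (v.adicCompletion K) D.t) ^ 2
        - 4 * algebraMap K (v.adicCompletion K) D.n) = 1 := by
      rw [← edisc]
      exact hdisc
    have hM := finComp_torus965 v hm₁
    have hZ := finComp_diagonal965 v hza
    have hc : Valued.v (evF129 v (a : Adl K)) = WithZero.exp (-1 : ℤ) := haunif.2
    have hA : Valued.v (evF129 v A) ≤ 1 := by
      have h := hint 0 0
      rw [← coe_finCompHom129, hM] at h
      exact h
    have hB : Valued.v (evF129 v B) ≤ 1 := by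
      have h := hint 1 0
      rw [← coe_finCompHom129, hM] at h
      exact h
    have hdetM : Valued.v ((finCompHom129 v m₁ : GL (Fin 2) (v.adicCompletion K)) :
        Matrix (Fin 2) (Fin 2) (v.adicCompletion K)).det = WithZero.exp (-1 : ℤ) := hdet
    -- the second element
    set m₂ : G K := z * m₁⁻¹ with hm₂
    have hT₂ : InTorus D.t D.n m₂ := inTorus_mul965 hzT (inTorus_inv965 hT)
    have hloc₂ : IsLocalAtFin v m₂ := isLocalAtFin_mul129 hz.1 (isLocalAtFin_inv129 hloc)
    have hint₂ : IsIntegralAt v m₂ := by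
      intro i j
      rw [← coe_finCompHom129, hm₂, map_mul, map_inv]
      exact split_integral965 Valued.v ht hn hA hB hM hdetM hZ hc i j
    have hdet₂ : Valued.v (finComp v m₂).det = WithZero.exp (-1 : ℤ) := by
      rw [← coe_finCompHom129, hm₂, map_mul, map_inv]
      exact split_det965 Valued.v hdetM hZ hc
    have hnot : ¬ IsIntegralAt v (m₁⁻¹ * m₂) := by
      intro h
      refine split_not_integral965 Valued.v ht hn hA hB hdisc' hM hdetM hZ hc ?_
      intro i j
      have h' := h i j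
      rw [← coe_finCompHom129, hm₂, map_mul, map_mul, map_inv] at h'
      exact h'
    have hb := (hind.1 m₁ m₂ hT hT₂ hloc hloc₂ hint hint₂ hdet hdet₂ hnot).2
    have hzm : m₁ * m₂ = z := by
      rw [hm₂, ← mul_assoc, central_of_diagonal965 hza m₁, mul_assoc, mul_inv_cancel, mul_one]
    have hχ : D.χT z = D.χT m₁ * D.χT m₂ := by
      rw [← hctx.good.torus.mul m₁ m₂ hT hT₂, hzm]
    -- `η(a) = 1`
    have hu : η (Matrix.GeneralLinearGroup.det m₁ * a⁻¹) = 1 :=
      (hctx.std.good_eta v hctx.hv).1 _ (isUnitIdeleAt_det_mul_inv965 hloc hdet haunif)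
    have hδ : η (Matrix.GeneralLinearGroup.det m₁) = 1 := hctx.std.quad.norm m₁ hT
    have hηa : η a = 1 := by
      have e : Matrix.GeneralLinearGroup.det m₁ = (Matrix.GeneralLinearGroup.det m₁ * a⁻¹) * a := by
        rw [inv_mul_cancel_right]
      rw [e, hctx.std.quad.mul, hu, one_mul] at hδ
      exact hδ
    rw [hηa, one_mul, hχ, hb]

end Fermat.Agent.LT.A2.H965

end
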