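import Fermat.Agent.LT.A2.H753.RegSpec

/-!
# Row LT, tower A2, leaf A2.03.1.3.1 `H753.ContProdC` (helper965) — OFF-MAIN

`contProdC965 : H753.ContProdC`: a product of continuous local functions which are standard at
almost all finite places is continuous on `𝔸_K²`.

`prodFn f f' ξ = (∏_u f u ξ_u) · ∏ᶠ_v f' v ξ_v`, and with `f' v = stdFn v` off the finite set
`S`: `∏ᶠ_v f' v ξ_v = 1_E(ξ) · ∏_{v ∈ S} f' v ξ_v`, `E = {ξ : ∀ v ∉ S, ξ_v ∈ 𝒪_v²}` open and
closed in the restricted product topology.
-/

set_option autoImplicit false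

open IsDedekindDomain NumberField AutomorphicForm MeasureTheory
open scoped MatrixGroups Topology

noncomputable section

namespace Fermat.Agent.LT.A2.H965

open Fermat.Agent.LT.H130 Fermat.Agent.LT.H556 Fermat.Agent.LT.A2 Fermat.Agent.LT.A2.WX467

variable {K : Type} [Field K] [NumberField K]

/-! ## Continuity of the components -/

theorem continuous_evalFin965 (v : HeightOneSpectrum (𝓞 K)) :
    Continuous (fun x : FiniteAdeleRing (𝓞 K) K => x v) :=
  RestrictedProduct.continuous_eval v

theorem continuous_evalInf965 (u : InfinitePlace K) :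
    Continuous (fun x : InfiniteAdeleRing K => x u) :=
  continuous_apply u

theorem continuous_infVec965 (u : InfinitePlace K) : Continuous (infVec (K := K) u) := by
  unfold infVec
  exact ((continuous_evalInf965 u).comp (continuous_fst.comp continuous_fst)).prodMk
    ((continuous_evalInf965 u).comp (continuous_fst.comp continuous_snd))

theorem continuous_finVec965 (v : HeightOneSpectrum (𝓞 K)) : Continuous (finVec (K := K) v) := by
  unfold finVec
  exact ((continuous_evalFin965 v).comp (continuous_snd.comp continuous_fst)).prodMk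
    ((continuous_evalFin965 v).comp (continuous_snd.comp continuous_snd))

/-! ## The set `E` -/

/-- The finite adeles which are integral outside `S`. -/
def intOff965 (S : Finset (HeightOneSpectrum (𝓞 K))) : Set (FiniteAdeleRing (𝓞 K) K) :=
  {x | ∀ v, v ∉ S → x v ∈ v.adicCompletionIntegers K}

theorem isOpen_intOff965 (S : Finset (HeightOneSpectrum (𝓞 K))) :
    IsOpen (intOff965 (K := K) S) :=
  RestrictedProduct.isOpen_forall_imp_mem
    (R := fun v : HeightOneSpectrum (𝓞 K) => v.adicCompletion K)
    (A := fun v : HeightOneSpectrum (𝓞 K) => v.adicCompletionIntegers K)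
    (fun v => Valued.isOpen_valuationSubring _) (p := fun v => v ∉ S)

theorem isClosed_intOff965 (S : Finset (HeightOneSpectrum (𝓞 K))) :
    IsClosed (intOff965 (K := K) S) := by
  have e : intOff965 (K := K) S
      = ⋂ v : HeightOneSpectrum (𝓞 K), ⋂ (_ : v ∉ S),
          (fun x : FiniteAdeleRing (𝓞 K) K => x v) ⁻¹'
            (v.adicCompletionIntegers K : Set (v.adicCompletion K)) := by
    ext x
    simp only [intOff965, Set.mem_setOf_eq, Set.mem_iInter, Set.mem_preimage, SetLike.mem_coe]
  rw [e]
  exact isClosed_iInter fun v => isClosed_iInter fun _ =>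
    (Valued.isClosed_valuationSubring _).preimage (continuous_evalFin965 v)

/-- The vectors of `𝔸_K²` which are integral outside `S`. -/
def vecIntOff965 (S : Finset (HeightOneSpectrum (𝓞 K))) : Set (A0.Adl K × A0.Adl K) :=
  {ξ | ξ.1.2 ∈ intOff965 S ∧ ξ.2.2 ∈ intOff965 S}

theorem isClopen_vecIntOff965 (S : Finset (HeightOneSpectrum (𝓞 K))) :
    IsClopen (vecIntOff965 (K := K) S) := by
  have h1 : Continuous (fun ξ : A0.Adl K × A0.Adl K => ξ.1.2) := continuous_snd.comp continuous_fst
  have h2 : Continuous (fun ξ : A0.Adl K × A0.Adl K => ξ.2.2) := continuous_snd.comp continuous_snd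
  constructor
  · exact ((isClosed_intOff965 S).preimage h1).inter ((isClosed_intOff965 S).preimage h2)
  · exact ((isOpen_intOff965 S).preimage h1).inter ((isOpen_intOff965 S).preimage h2)

/-! ## The finite part -/

theorem stdFn_of_mem965 (v : HeightOneSpectrum (𝓞 K))
    {ξ : v.adicCompletion K × v.adicCompletion K}
    (h : ξ.1 ∈ v.adicCompletionIntegers K ∧ ξ.2 ∈ v.adicCompletionIntegers K) :
    stdFn v ξ = 1 := by
  unfold stdFn
  exact if_pos h

theorem stdFn_of_not_mem965 (v : HeightOneSpectrum (𝓞 K))
    {ξ : v.adicCompletion K × v.adicCompletion K}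
    (h : ¬ (ξ.1 ∈ v.adicCompletionIntegers K ∧ ξ.2 ∈ v.adicCompletionIntegers K)) :
    stdFn v ξ = 0 := by
  unfold stdFn
  exact if_neg h

/-- A finite adele is integral at almost all places. -/
theorem finite_not_int965 (x : FiniteAdeleRing (𝓞 K) K) :
    {v : HeightOneSpectrum (𝓞 K) | x v ∉ v.adicCompletionIntegers K}.Finite :=
  Filter.eventually_cofinite.1 x.2

/-- The finite part of the product, for local functions standard outside `S`. -/
theorem finprod_eq_indicator965
    (f' : ∀ v : HeightOneSpectrum (𝓞 K), v.adicCompletion K × v.adicCompletion K → ℂ)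
    (S : Finset (HeightOneSpectrum (𝓞 K))) (hS : ∀ v, v ∉ S → f' v = stdFn v)
    (ξ : A0.Adl K × A0.Adl K) :
    (∏ᶠ v : HeightOneSpectrum (𝓞 K), f' v (finVec v ξ))
      = (vecIntOff965 S).indicator (fun ξ => ∏ v ∈ S, f' v (finVec v ξ)) ξ := by
  by_cases hξ : ξ ∈ vecIntOff965 S
  · rw [Set.indicator_of_mem hξ]
    apply finprod_eq_prod_of_mulSupport_subset
    intro v hv
    by_contra hvS
    have hvS' : v ∉ S := fun h => hvS (Finset.mem_coe.2 h)
    apply (Function.mem_mulSupport.1 hv)
    rw [hS v hvS']
    exact stdFn_of_mem965 v ⟨hξ.1 v hvS', hξ.2 v hvS'⟩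
  · rw [Set.indicator_of_notMem hξ]
    -- a place outside `S` at which `ξ` is not integral
    have hex : ∃ v, v ∉ S ∧ ¬ ((finVec v ξ).1 ∈ v.adicCompletionIntegers K
        ∧ (finVec v ξ).2 ∈ v.adicCompletionIntegers K) := by
      by_contra hcon
      apply hξ
      constructor
      · intro v hv
        by_contra h1
        exact hcon ⟨v, hv, fun h => h1 h.1⟩
      · intro v hv
        by_contra h1
        exact hcon ⟨v, hv, fun h => h1 h.2⟩
    obtain ⟨v, hvS, hv⟩ := hex
    have hzero : f' v (finVec v ξ) = 0 := by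
      rw [hS v hvS]
      exact stdFn_of_not_mem965 v hv
    refine finprod_eq_zero _ v hzero ?_
    -- finiteness of the support
    have hfin : ((S : Set (HeightOneSpectrum (𝓞 K)))
        ∪ ({v | ξ.1.2 v ∉ v.adicCompletionIntegers K}
          ∪ {v | ξ.2.2 v ∉ v.adicCompletionIntegers K})).Finite :=
      S.finite_toSet.union ((finite_not_int965 ξ.1.2).union (finite_not_int965 ξ.2.2))
    refine hfin.subset fun w hw => ?_
    by_contra hcon
    simp only [Set.mem_union, Finset.mem_coe, Set.mem_setOf_eq, not_or, not_not] at hcon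
    apply (Function.mem_mulSupport.1 hw)
    rw [hS w hcon.1]
    exact stdFn_of_mem965 w ⟨hcon.2.1, hcon.2.2⟩

/-! ## The leaf -/

/-- **R1 CONT-PROD** (`H753.ContProdC`). -/
theorem contProdC965 : H753.ContProdC := by
  intro K _ _ f f' hf hf' hstd
  obtain ⟨S, hS⟩ := hstd
  have e : prodFn f f' = fun ξ => (∏ u : InfinitePlace K, f u (infVec u ξ))
      * (vecIntOff965 S).indicator (fun ξ => ∏ v ∈ S, f' v (finVec v ξ)) ξ := by
    funext ξ
    unfold prodFn
    rw [finprod_eq_indicator965 f' S hS ξ]
  rw [e]
  refine Continuous.mul ?_ ?_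
  · exact continuous_finsetProd _ fun u _ => (hf u).comp (continuous_infVec965 u)
  · exact (isClopen_vecIntOff965 S).continuous_indicator
      (continuous_finsetProd _ fun v _ => (hf' v).comp (continuous_finVec965 v))

end Fermat.Agent.LT.A2.H965

end
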