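import Fermat.Agent.LT.A2.H142.HeckeSpec

/-!
# Row LT, tower A2, leaf A2.03.8.3 `H142.CentC` (helper965), part 1: algebra — OFF-MAIN

* the torus `T = {torMat t n a b}` is stable under products and inverses and contains the
  scalar matrices;
* a scalar uniformiser `z` at `v` is the scalar matrix of an idele `a` supported at `v`
  (`IsUnifIdeleAt v a`), it is central, and `z = t(a) d(a²)`, `det z = a²`.
-/

set_option autoImplicit false

open IsDedekindDomain NumberField AutomorphicForm MeasureTheory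
open scoped MatrixGroups

noncomputable section

namespace Fermat.Agent.LT.A2.H965

open Fermat.Agent.LT.H556 Fermat.Agent.LT.H556.A0 Fermat.Agent.LT.H129 Fermat.Agent.LT.A2

/-! ## The torus matrices -/

section TorAlg

variable {R : Type*} [CommRing R]

theorem torMat_mul965 (t n a b a' b' : R) :
    torMat t n a b * torMat t n a' b'
      = torMat t n (a * a' - n * b * b') (a * b' + a' * b + t * b * b') := by
  unfold torMat
  ext i j
  fin_cases i <;> fin_cases j <;> simp [Matrix.mul_apply, Fin.sum_univ_two] <;> ring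

theorem torMat_det965 (t n a b : R) :
    (torMat t n a b).det = a ^ 2 + t * a * b + n * b ^ 2 := by
  unfold torMat
  rw [Matrix.det_fin_two_of]
  ring

theorem torMat_one965 (t n : R) : torMat t n 1 0 = 1 := by
  unfold torMat
  ext i j
  fin_cases i <;> fin_cases j <;> simp

theorem torMat_scalar965 (t n a : R) : torMat t n a 0 = Matrix.diagonal (fun _ => a) := by
  unfold torMat
  ext i j
  fin_cases i <;> fin_cases j <;> simp

end TorAlg

variable {K : Type} [Field K] [NumberField K]

theorem inTorus_mul965 {t n : K} {m m' : G K} (h : InTorus t n m) (h' : InTorus t n m') :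
    InTorus t n (m * m') := by
  obtain ⟨a, b, hm⟩ := h
  obtain ⟨a', b', hm'⟩ := h'
  refine ⟨a * a' - algebraMap K (Adl K) n * b * b',
    a * b' + a' * b + algebraMap K (Adl K) t * b * b', ?_⟩
  rw [Matrix.GeneralLinearGroup.coe_mul, hm, hm', torMat_mul965]

theorem inTorus_inv965 {t n : K} {m : G K} (h : InTorus t n m) : InTorus t n m⁻¹ := by
  obtain ⟨a, b, hm⟩ := h
  set T := algebraMap K (Adl K) t with hT
  set N := algebraMap K (Adl K) n with hN
  set δ : (Adl K)ˣ := Matrix.GeneralLinearGroup.det m with hδ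
  have hδv : (δ : Adl K) = a ^ 2 + T * a * b + N * b ^ 2 := by
    rw [hδ, Matrix.GeneralLinearGroup.val_det_apply, hm, torMat_det965]
  set δ' : Adl K := ((δ⁻¹ : (Adl K)ˣ) : Adl K) with hδ'
  have hdd : (δ : Adl K) * δ' = 1 := Units.mul_inv δ
  refine ⟨(a + T * b) * δ', -b * δ', ?_⟩
  have hprod : (m : Matrix (Fin 2) (Fin 2) (Adl K)) * torMat T N ((a + T * b) * δ') (-b * δ')
      = 1 := by
    rw [hm, torMat_mul965, ← torMat_one965 T N]
    congr 1
    · calc a * ((a + T * b) * δ') - N * b * (-b * δ')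
          = (a ^ 2 + T * a * b + N * b ^ 2) * δ' := by ring
        _ = 1 := by rw [← hδv, hdd]
    · ring
  calc ((m⁻¹ : G K) : Matrix (Fin 2) (Fin 2) (Adl K))
      = ((m⁻¹ : G K) : Matrix (Fin 2) (Fin 2) (Adl K))
          * ((m : Matrix (Fin 2) (Fin 2) (Adl K)) * torMat T N ((a + T * b) * δ') (-b * δ')) := by
        rw [hprod, mul_one]
    _ = torMat T N ((a + T * b) * δ') (-b * δ') := by
        rw [← mul_assoc, ← Matrix.GeneralLinearGroup.coe_mul, inv_mul_cancel,
          Matrix.GeneralLinearGroup.coe_one, one_mul]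

theorem inTorus_of_diagonal965 (t n : K) {z : G K} {a : Adl K}
    (hz : (z : Matrix (Fin 2) (Fin 2) (Adl K)) = Matrix.diagonal (fun _ => a)) :
    InTorus t n z :=
  ⟨a, 0, by rw [hz, torMat_scalar965]⟩

/-! ## Scalar matrices are central -/

theorem central_of_diagonal965 {z : G K} {a : Adl K}
    (hz : (z : Matrix (Fin 2) (Fin 2) (Adl K)) = Matrix.diagonal (fun _ => a)) (g : G K) :
    g * z = z * g := by
  apply Units.ext
  rw [Matrix.GeneralLinearGroup.coe_mul, Matrix.GeneralLinearGroup.coe_mul, hz]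
  ext i j
  rw [Matrix.mul_diagonal, Matrix.diagonal_mul, mul_comm]

/-! ## The idele of a scalar uniformiser -/

/-- The entries of an element supported at `v`, at the infinite places. -/
theorem entry_inf965 {v : HeightOneSpectrum (𝓞 K)} {z : G K} (hz : IsLocalAtFin v z)
    (w : InfinitePlace K) (i j : Fin 2) :
    ((z : Matrix (Fin 2) (Fin 2) (Adl K)) i j).1 w
      = (1 : Matrix (Fin 2) (Fin 2) w.Completion) i j :=
  hz.1 w i j

/-- The entries of an element supported at `v`, at the other finite places. -/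
theorem entry_fin965 {v : HeightOneSpectrum (𝓞 K)} {z : G K} (hz : IsLocalAtFin v z)
    {v' : HeightOneSpectrum (𝓞 K)} (h : v' ≠ v) (i j : Fin 2) :
    ((z : Matrix (Fin 2) (Fin 2) (Adl K)) i j).2 v'
      = (1 : Matrix (Fin 2) (Fin 2) (v'.adicCompletion K)) i j :=
  congrFun (congrFun (hz.2 v' h) i) j

/-- A scalar uniformiser is a diagonal matrix with equal diagonal entries. -/
theorem scalarUnif_eq_diagonal965 {v : HeightOneSpectrum (𝓞 K)} {z : G K}
    (hz : IsScalarUniformizerAt v z) :
    (z : Matrix (Fin 2) (Fin 2) (Adl K))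
      = Matrix.diagonal (fun _ => (z : Matrix (Fin 2) (Fin 2) (Adl K)) 0 0) := by
  obtain ⟨hloc, c, -, hzc⟩ := hz
  have hv : ∀ i j, ((z : Matrix (Fin 2) (Fin 2) (Adl K)) i j).2 v
      = Matrix.diagonal (fun _ : Fin 2 => c) i j := fun i j => congrFun (congrFun hzc i) j
  ext i j
  refine congrFun (congrFun (show (z : Matrix (Fin 2) (Fin 2) (Adl K))
    = Matrix.diagonal (fun _ => (z : Matrix (Fin 2) (Fin 2) (Adl K)) 0 0) from ?_) i) j
  refine Matrix.ext fun i j => adele_ext129 (fun w => ?_) (fun v' => ?_)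
  · rw [entry_inf965 hloc w i j]
    by_cases hij : i = j
    · subst hij
      rw [Matrix.diagonal_apply_eq, entry_inf965 hloc w 0 0, Matrix.one_apply_eq,
        Matrix.one_apply_eq]
    · rw [Matrix.diagonal_apply_ne _ hij, Matrix.one_apply_ne hij]
      rfl
  · by_cases h : v' = v
    · subst h
      rw [hv i j]
      by_cases hij : i = j
      · subst hij
        rw [Matrix.diagonal_apply_eq, Matrix.diagonal_apply_eq, hv 0 0,
          Matrix.diagonal_apply_eq]
      · rw [Matrix.diagonal_apply_ne _ hij, Matrix.diagonal_apply_ne _ hij]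
        rfl
    · rw [entry_fin965 hloc h i j]
      by_cases hij : i = j
      · subst hij
        rw [Matrix.diagonal_apply_eq, entry_fin965 hloc h 0 0, Matrix.one_apply_eq,
          Matrix.one_apply_eq]
      · rw [Matrix.diagonal_apply_ne _ hij, Matrix.one_apply_ne hij]
        rfl

/-- **The idele of a scalar uniformiser**: `z = diag(a, a)` with `a` a uniformiser idele at
`v`. -/
theorem exists_idele_of_scalarUnif965 {v : HeightOneSpectrum (𝓞 K)} {z : G K}
    (hz : IsScalarUniformizerAt v z) :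
    ∃ a : (Adl K)ˣ, IsUnifIdeleAt v a ∧
      (z : Matrix (Fin 2) (Fin 2) (Adl K)) = Matrix.diagonal (fun _ => (a : Adl K)) := by
  have hdiag := scalarUnif_eq_diagonal965 hz
  have hdiag' := hdiag
  obtain ⟨hloc, c, hc, hzc⟩ := hz
  set x : Adl K := (z : Matrix (Fin 2) (Fin 2) (Adl K)) 0 0 with hx
  set y : Adl K := ((z⁻¹ : G K) : Matrix (Fin 2) (Fin 2) (Adl K)) 0 0 with hy
  have h01 : (z : Matrix (Fin 2) (Fin 2) (Adl K)) 0 1 = 0 := by
    rw [hdiag]
    exact Matrix.diagonal_apply_ne _ (by decide)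
  have h10 : (z : Matrix (Fin 2) (Fin 2) (Adl K)) 1 0 = 0 := by
    rw [hdiag]
    exact Matrix.diagonal_apply_ne _ (by decide)
  have hxy : x * y = 1 := by
    have h := congrFun (congrFun (show (z : Matrix (Fin 2) (Fin 2) (Adl K))
      * ((z⁻¹ : G K) : Matrix (Fin 2) (Fin 2) (Adl K)) = 1 from by
        rw [← Matrix.GeneralLinearGroup.coe_mul, mul_inv_cancel,
          Matrix.GeneralLinearGroup.coe_one]) 0) 0
    rw [Matrix.mul_apply, Fin.sum_univ_two, h01, zero_mul, add_zero, Matrix.one_apply_eq] at h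
    exact h
  have hyx : y * x = 1 := by rw [mul_comm]; exact hxy
  refine ⟨⟨x, y, hxy, hyx⟩, ⟨⟨fun w => ?_, fun v' h => ?_⟩, ?_⟩, hdiag'⟩
  · show x.1 w = 1
    rw [hx, entry_inf965 hloc w 0 0, Matrix.one_apply_eq]
  · show x.2 v' = 1
    rw [hx, entry_fin965 hloc h 0 0, Matrix.one_apply_eq]
  · show Valued.v (x.2 v) = WithZero.exp (-1 : ℤ)
    have : x.2 v = c := by
      have := congrFun (congrFun hzc 0) 0
      rw [Matrix.diagonal_apply_eq] at this
      exact this
    rw [this, hc]

end Fermat.Agent.LT.A2.H965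

end
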