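import Fermat.Agent.LT.A2.H965.CentAlg

/-!
# Row LT, tower A2, leaf A2.03.8.3 `H142.CentC` (helper965), part 3: the local torus — OFF-MAIN

Valuation lemmas for the quadratic algebra `𝒪[ω]`, `ω² - t ω + n = 0`, with unit discriminant:
if `N(x) = x x̄` is a uniformiser then `x̄² ≢ 0 mod ϖ` (the algebra `𝒪[ω]/ϖ` is reduced).
-/

set_option autoImplicit false

open IsDedekindDomain NumberField AutomorphicForm MeasureTheory
open scoped MatrixGroups

noncomputable section

namespace Fermat.Agent.LT.A2.H965

open Fermat.Agent.LT.H556 Fermat.Agent.LT.H556.A0 Fermat.Agent.LT.H129 Fermat.Agent.LT.A2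

section Val

variable {F Γ : Type*} [Field F] [LinearOrderedCommGroupWithZero Γ] (v : Valuation F Γ)

theorem val_two_le965 : v (2 : F) ≤ 1 := by
  have h : (2 : F) = 1 + 1 := by norm_num
  rw [h]
  exact (v.map_add_le_max' 1 1).trans (by simp)

theorem val_four_le965 : v (4 : F) ≤ 1 := by
  have h : (4 : F) = 2 * 2 := by norm_num
  rw [h, map_mul]
  exact mul_le_one' (val_two_le965 v) (val_two_le965 v)

theorem val_mul_lt_one_left965 {x y : F} (hx : v x < 1) (hy : v y ≤ 1) : v (x * y) < 1 := by
  rw [map_mul]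
  calc v x * v y ≤ v x * 1 := mul_le_mul_right hy _
    _ = v x := mul_one _
    _ < 1 := hx

theorem val_mul_lt_one_right965 {x y : F} (hx : v x ≤ 1) (hy : v y < 1) : v (x * y) < 1 := by
  rw [mul_comm]
  exact val_mul_lt_one_left965 v hy hx

/-- **Reducedness of `𝒪[ω]/ϖ`** (unit discriminant): if the square of `α + β ω` vanishes modulo
the maximal ideal then so do `α` and `β`. -/
theorem val_lemma965 {t n α β : F} (ht : v t ≤ 1) (hn : v n ≤ 1) (hα : v α ≤ 1) (hβ : v β ≤ 1)
    (hdisc : v (t ^ 2 - 4 * n) = 1)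
    (h1 : v (α * α - n * β * β) < 1) (h2 : v (α * β + α * β + t * β * β) < 1) :
    v α < 1 ∧ v β < 1 := by
  have hβ1 : v β < 1 := by
    by_contra hcon
    have hβe : v β = 1 := le_antisymm hβ (not_lt.1 hcon)
    have e1 : α * β + α * β + t * β * β = β * (2 * α + t * β) := by ring
    have h3 : v (2 * α + t * β) < 1 := by
      rw [e1, map_mul, hβe, one_mul] at h2
      exact h2
    have h4 : v (t * β - 2 * α) ≤ 1 := by
      refine (v.map_sub _ _).trans (max_le ?_ ?_)
      · rw [map_mul]; exact mul_le_one' ht hβ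
      · rw [map_mul]; exact mul_le_one' (val_two_le965 v) hα
    have key : (t ^ 2 - 4 * n) * β ^ 2
        = (2 * α + t * β) * (t * β - 2 * α) + 4 * (α * α - n * β * β) := by ring
    have hL : v ((t ^ 2 - 4 * n) * β ^ 2) = 1 := by
      rw [map_mul, hdisc, map_pow, hβe, one_pow, one_mul]
    have hR : v ((2 * α + t * β) * (t * β - 2 * α) + 4 * (α * α - n * β * β)) < 1 :=
      lt_of_le_of_lt (v.map_add_le_max' _ _)
        (max_lt (val_mul_lt_one_left965 v h3 h4)
          (val_mul_lt_one_right965 v (val_four_le965 v) h1))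
    rw [key] at hL
    exact absurd hL hR.ne
  refine ⟨?_, hβ1⟩
  by_contra hcon
  have hαe : v α = 1 := le_antisymm hα (not_lt.1 hcon)
  have e2 : α * α = (α * α - n * β * β) + n * β * β := by ring
  have h5 : v (n * β * β) < 1 :=
    val_mul_lt_one_right965 v (by rw [map_mul]; exact mul_le_one' hn hβ) hβ1
  have h6 : v (α * α) < 1 := by
    rw [e2]
    exact lt_of_le_of_lt (v.map_add_le_max' _ _) (max_lt h1 h5)
  rw [map_mul, hαe, one_mul] at h6
  exact lt_irrefl _ h6

end Val

/-! ## Torus matrices and ring homomorphisms -/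

theorem torMat_map965 {R S : Type*} [CommRing R] [CommRing S] (f : R →+* S) (t n a b : R) :
    (torMat t n a b).map f = torMat (f t) (f n) (f a) (f b) := by
  unfold torMat
  ext i j
  fin_cases i <;> fin_cases j <;> simp

theorem torMat_adjugate965 {R : Type*} [CommRing R] (t n a b : R) :
    Matrix.adjugate (torMat t n a b) = torMat t n (a + t * b) (-b) := by
  unfold torMat
  rw [Matrix.adjugate_fin_two_of]
  ext i j
  fin_cases i <;> fin_cases j <;> simp

end Fermat.Agent.LT.A2.H965

end
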