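import Fermat.Agent.LT.A2.H965.CentAlg

/-!
# Row LT, tower A2, leaf A2.03.8.3 `H142.CentC` (helper965), part 2: the central character of `W`
— OFF-MAIN

For a scalar matrix `z = diag(a, a)`, `a` an idele:
* `F (z g) (z m) ξ = η(a) F g m ξ` (`diagA` for `t(a)`, `torA` for `μ = z`, `z = t(a) d(a²)`,
  `|a|_𝔸 |a²|_𝔸^{-1/2} = 1`);
* `W (g z) = η(a) χT(z) W(g)`.
-/

set_option autoImplicit false

open IsDedekindDomain NumberField AutomorphicForm MeasureTheory
open scoped MatrixGroups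

noncomputable section

namespace Fermat.Agent.LT.A2.H965

open Fermat.Agent.LT.H556 Fermat.Agent.LT.H556.A0 Fermat.Agent.LT.H129 Fermat.Agent.LT.A2

variable {K : Type} [Field K] [NumberField K]

/-- `t(a) = diag(a, a⁻¹)`. -/
def tA965 (a : (Adl K)ˣ) : G K :=
  Matrix.GeneralLinearGroup.mk'' !![(a : Adl K), 0; 0, ((a⁻¹ : (Adl K)ˣ) : Adl K)]
    (by rw [Matrix.det_fin_two_of]; simp)

/-- `d(a) = diag(1, a)`. -/
def dA965 (a : (Adl K)ˣ) : G K :=
  Matrix.GeneralLinearGroup.mk'' !![1, 0; 0, (a : Adl K)]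
    (by rw [Matrix.det_fin_two_of]; simp)

theorem coe_tA965 (a : (Adl K)ˣ) :
    ((tA965 a : G K) : Matrix (Fin 2) (Fin 2) (Adl K))
      = !![(a : Adl K), 0; 0, ((a⁻¹ : (Adl K)ˣ) : Adl K)] := rfl

theorem coe_dA965 (a : (Adl K)ˣ) :
    ((dA965 a : G K) : Matrix (Fin 2) (Fin 2) (Adl K)) = !![1, 0; 0, (a : Adl K)] := rfl

theorem isDiagSLA_tA965 (a : (Adl K)ˣ) : WL.IsDiagSLA (tA965 a) a := coe_tA965 a

theorem isDiagOneA_dA965 (a : (Adl K)ˣ) : WL.IsDiagOneA (dA965 a) a := coe_dA965 a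

theorem det_dA965 (a : (Adl K)ˣ) : Matrix.GeneralLinearGroup.det (dA965 a) = a := by
  apply Units.ext
  rw [Matrix.GeneralLinearGroup.val_det_apply, coe_dA965, Matrix.det_fin_two_of]
  ring

/-- The determinant of `diag(a, a)`. -/
theorem det_of_diagonal965 {z : G K} {a : (Adl K)ˣ}
    (hz : (z : Matrix (Fin 2) (Fin 2) (Adl K)) = Matrix.diagonal (fun _ => (a : Adl K))) :
    Matrix.GeneralLinearGroup.det z = a * a := by
  apply Units.ext
  rw [Matrix.GeneralLinearGroup.val_det_apply, hz, Matrix.det_diagonal, Fin.prod_univ_two,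
    Units.val_mul]

/-- `diag(a, a) = t(a) d(a²)`. -/
theorem diagonal_eq_tA_mul_dA965 {z : G K} {a : (Adl K)ˣ}
    (hz : (z : Matrix (Fin 2) (Fin 2) (Adl K)) = Matrix.diagonal (fun _ => (a : Adl K))) :
    z = tA965 a * dA965 (Matrix.GeneralLinearGroup.det z) := by
  apply Units.ext
  rw [Matrix.GeneralLinearGroup.coe_mul, coe_tA965, coe_dA965, det_of_diagonal965 hz, hz]
  ext i j
  fin_cases i <;> fin_cases j <;> simp [Matrix.mul_apply, Fin.sum_univ_two]

/-- The inverse of `diag(a, a)`. -/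
theorem inv_of_diagonal965 {z : G K} {a : (Adl K)ˣ}
    (hz : (z : Matrix (Fin 2) (Fin 2) (Adl K)) = Matrix.diagonal (fun _ => (a : Adl K))) :
    ((z⁻¹ : G K) : Matrix (Fin 2) (Fin 2) (Adl K))
      = Matrix.diagonal (fun _ => ((a⁻¹ : (Adl K)ˣ) : Adl K)) := by
  have hprod : (z : Matrix (Fin 2) (Fin 2) (Adl K))
      * Matrix.diagonal (fun _ => ((a⁻¹ : (Adl K)ˣ) : Adl K)) = 1 := by
    rw [hz, Matrix.diagonal_mul_diagonal]
    simp
  calc ((z⁻¹ : G K) : Matrix (Fin 2) (Fin 2) (Adl K))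
      = ((z⁻¹ : G K) : Matrix (Fin 2) (Fin 2) (Adl K))
          * ((z : Matrix (Fin 2) (Fin 2) (Adl K))
            * Matrix.diagonal (fun _ => ((a⁻¹ : (Adl K)ˣ) : Adl K))) := by
        rw [hprod, mul_one]
    _ = Matrix.diagonal (fun _ => ((a⁻¹ : (Adl K)ˣ) : Adl K)) := by
        rw [← mul_assoc, ← Matrix.GeneralLinearGroup.coe_mul, inv_mul_cancel,
          Matrix.GeneralLinearGroup.coe_one, one_mul]

/-- `z⁻¹ (a ξ) = ξ` for `z = diag(a, a)`. -/
theorem actV_inv_smul965 {z : G K} {a : (Adl K)ˣ}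
    (hz : (z : Matrix (Fin 2) (Fin 2) (Adl K)) = Matrix.diagonal (fun _ => (a : Adl K)))
    (ξ : Adl K × Adl K) : actV z⁻¹ ((a : Adl K) • ξ) = ξ := by
  have h1 : ((a⁻¹ : (Adl K)ˣ) : Adl K) * (a : Adl K) = 1 := Units.inv_mul a
  unfold actV
  rw [inv_of_diagonal965 hz]
  ext
  · simp only [Matrix.diagonal_apply_eq, Prod.smul_fst, Prod.smul_snd, smul_eq_mul, ne_eq,
      Fin.zero_eq_one_iff, Nat.succ_ne_self, not_false_eq_true, Matrix.diagonal_apply_ne,
      zero_mul, add_zero]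
    rw [← mul_assoc, h1, one_mul]
  · simp only [Matrix.diagonal_apply_eq, Prod.smul_fst, Prod.smul_snd, smul_eq_mul, ne_eq,
      Fin.one_eq_zero_iff, Nat.succ_ne_self, not_false_eq_true, Matrix.diagonal_apply_ne,
      zero_mul, zero_add]
    rw [← mul_assoc, h1, one_mul]

/-- **The key identity**: `F (z g) (z m) ξ = η(a) F g m ξ` for `z = diag(a, a)`. -/
theorem F_scalar965 (D : KData K) (η : (Adl K)ˣ → ℂ) (hstd : WL.IsStd D η)
    (hAd : T1.AdNormC K) {z : G K} {a : (Adl K)ˣ}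
    (hz : (z : Matrix (Fin 2) (Fin 2) (Adl K)) = Matrix.diagonal (fun _ => (a : Adl K)))
    (g m : G K) (ξ : Adl K × Adl K) (hadm : Adm D.t D.n g m) :
    D.F (z * g) (z * m) ξ = η a * D.F g m ξ := by
  have hzT : InTorus D.t D.n z := inTorus_of_diagonal965 D.t D.n hz
  set d : G K := dA965 (Matrix.GeneralLinearGroup.det z) with hd
  have hzsd : z = tA965 a * d := diagonal_eq_tA_mul_dA965 hz
  have hadm' : Adm D.t D.n (d * g) (z * m) := by
    refine ⟨inTorus_mul965 hzT hadm.1, ?_⟩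
    rw [map_mul, map_mul, hd, det_dA965, hadm.2]
  have h1 := hstd.torA z d hzT (isDiagOneA_dA965 _) g m ((a : Adl K) • ξ) hadm
  have h2 := hstd.diagA (tA965 a) a (isDiagSLA_tA965 a) (d * g) (z * m) ξ hadm'
  rw [actV_inv_smul965 hz] at h1
  have hpos : 0 < T1.adNorm K (a : Adl K) := hAd.1 a
  have hsqrt : Real.sqrt (T1.adNorm K
      ((Matrix.GeneralLinearGroup.det z : (Adl K)ˣ) : Adl K)) = T1.adNorm K (a : Adl K) := by
    rw [det_of_diagonal965 hz, hAd.2.1 a a, Real.sqrt_mul_self hpos.le]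
  rw [hsqrt] at h1
  have e : z * g = tA965 a * (d * g) := by rw [← mul_assoc, ← hzsd]
  rw [e, h2, mul_assoc, h1]

/-- `GL₂(𝔸)⁺` is stable under the scalar matrices. -/
theorem inGPlus_scalar_iff965 (t n : K) {z : G K} {a : (Adl K)ˣ}
    (hz : (z : Matrix (Fin 2) (Fin 2) (Adl K)) = Matrix.diagonal (fun _ => (a : Adl K)))
    (g : G K) : InGPlus t n (z * g) ↔ InGPlus t n g := by
  have hzT : InTorus t n z := inTorus_of_diagonal965 t n hz
  constructor
  · rintro ⟨m', hm', hdet⟩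
    refine ⟨z⁻¹ * m', inTorus_mul965 (inTorus_inv965 hzT) hm', ?_⟩
    rw [map_mul, map_inv, ← hdet, map_mul, inv_mul_cancel_left]
  · rintro ⟨m, hm, hdet⟩
    exact ⟨z * m, inTorus_mul965 hzT hm, by rw [map_mul, map_mul, hdet]⟩

/-- **The central character of the Whittaker function**: `W (g z) = η(a) χT(z) W(g)` for
`z = diag(a, a)`. -/
theorem W_scalar965 (D : KData K) (η : (Adl K)ˣ → ℂ) (W : G K → ℂ) (hgood : D.Good)
    (hstd : WL.IsStd D η) (hAd : T1.AdNormC K) (hW : D.IsWhit W) {z : G K} {a : (Adl K)ˣ}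
    (hz : (z : Matrix (Fin 2) (Fin 2) (Adl K)) = Matrix.diagonal (fun _ => (a : Adl K)))
    (g : G K) : W (g * z) = η a * D.χT z * W g := by
  have hzT : InTorus D.t D.n z := inTorus_of_diagonal965 D.t D.n hz
  rw [central_of_diagonal965 hz g]
  by_cases hg : InGPlus D.t D.n g
  · obtain ⟨mg, hadm⟩ := hg
    have hadm' : Adm D.t D.n (z * g) (z * mg) :=
      ⟨inTorus_mul965 hzT hadm.1, by rw [map_mul, map_mul, hadm.2]⟩
    rw [hW.formula (z * g) (z * mg) hadm', hW.formula g mg hadm]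
    unfold KData.intT
    letI : MeasurableSpace (G K) := borel (G K)
    rw [← integral_const_mul]
    apply integral_congr_ae
    have hcar : ∀ᵐ m ∂D.μT, InTorus1 D.t D.n m := ae_iff.2 hgood.measured.carried
    filter_upwards [ae_restrict_of_ae hcar] with m hm
    have hmm : InTorus D.t D.n (m * mg) := inTorus_mul965 hm.1 hadm.1
    have hadm_m : Adm D.t D.n g (m * mg) := by
      refine ⟨hmm, ?_⟩
      rw [map_mul, hm.2, one_mul, hadm.2]
    have e : m * (z * mg) = z * (m * mg) := by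
      rw [← mul_assoc, central_of_diagonal965 hz m, mul_assoc]
    rw [e, F_scalar965 D η hstd hAd hz g (m * mg) (1, 0) hadm_m,
      hgood.torus.mul z (m * mg) hzT hmm]
    ring
  · have hg' : ¬ InGPlus D.t D.n (z * g) := fun h => hg ((inGPlus_scalar_iff965 D.t D.n hz g).1 h)
    rw [hW.off g hg, hW.off (z * g) hg', mul_zero]

end Fermat.Agent.LT.A2.H965

end
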